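/-
P-ES / ES-BC4 (helper33): the descent homomorphism `J₀(N)(ℚ̄) → Pic⁰(ℂ(X₀(N)))` of ES-B in the
shape `Fermat.Agent.H28.HeckeDescentStatement N` (injective, onto torsion, Hecke equivariant),
from helper29's unconditional ES-B results, the landed finiteness of torsion over `ℂ` (ES-A) and
the Hecke inputs (ES-C1).
-/
import Fermat.Agent.H28.ES.Interface4
import Fermat.Agent.H29.ESB.HeckeFinal
import Fermat.Agent.H23.EsA.Unconditional

set_option autoImplicit false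

noncomputable section

open AlgebraicCurve ModularCurve

namespace Fermat.Agent.H33.BC4

/-- An embedding `ℚ̄ → ℂ`. -/
def embQbar : AlgebraicClosure ℚ →+* ℂ :=
  haveI : Algebra.IsAlgebraic ℚ (AlgebraicClosure ℚ) := AlgebraicClosure.isAlgebraic ℚ
  (IsAlgClosed.lift : AlgebraicClosure ℚ →ₐ[ℚ] ℂ).toRingHom

/-- **ES-BC4**, from the Hecke inputs at level `N`. -/
theorem heckeDescent_of_inputs (N : ℕ) [NeZero N]
    (hQ : ∀ (ℓ : ℕ) [NeZero ℓ], ℓ.Prime → ¬ ℓ ∣ N → HeckeInputsAlong (AlgebraicClosure ℚ) N ℓ)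
    (hC : ∀ (ℓ : ℕ) [NeZero ℓ], ℓ.Prime → ¬ ℓ ∣ N → HeckeInputsAlong ℂ N ℓ) :
    Fermat.Agent.H28.HeckeDescentStatement N := by
  refine ⟨Fermat.Agent.H29.descentHom N embQbar, Fermat.Agent.H29.descentHom_injective N embQbar,
    ?_, ?_⟩
  · intro m hm z hz
    exact Fermat.Agent.H29.descentHom_surjOn_torsion N embQbar hm
      (Fermat.Agent.H23.EsA.finite_torsion_pic0 N hm) z hz
  · intro ℓ _ hℓ hℓN x _
    exact Fermat.Agent.H29.descentHom_hecke N embQbar ℓ (hQ ℓ hℓ hℓN) (hC ℓ hℓ hℓN) x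

/-- **ES-BC4**, from ES-C1. -/
theorem heckeDescent (N : ℕ) [NeZero N]
    (hQ : Fermat.Agent.H21.EsC.HeckeInputsStatement (AlgebraicClosure ℚ))
    (hC : Fermat.Agent.H21.EsC.HeckeInputsStatement ℂ) :
    Fermat.Agent.H28.HeckeDescentStatement N :=
  heckeDescent_of_inputs N (fun ℓ _ hℓ _ => hQ N ℓ hℓ) (fun ℓ _ hℓ _ => hC N ℓ hℓ)

end Fermat.Agent.H33.BC4

end
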